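import Mathlib
import Fermat.Agent.LT.T7.H816.IotaSpec

/-!
# Row LT, tower T7, leaf T7.L2.1.C2.5-I.5 `H816.OntoInfC816` (registry row 2472) -- helper124

OFF-MAIN.  A fixed adele of `K'` comes from `K_v` at the infinite places over `v`.
VERBATIM against `LT/T7/H816/IotaSpec.lean` (helper816@e81f893cb, sha256 c16fad08c5fc320c).
No hole, nothing assumed.

Proof.  At every infinite place `w` of `K'` the base change `ι` is `c_w ∈ {id, conj}` in the
coordinates of `T5.infHom` (`IsPreBase816.inf`) and `σ_𝔸` is `d_w ∈ {id, conj}`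
(`SigmaLocC305`).  On the elements of `K` (fixed by `σ`) this gives `c_w = d_w ∘ c_{w ∘ σ}` on
the image of `K` in `ℂ`, which is not real (`v` is complex): so `c_w = d_w ∘ c_{w ∘ σ}`.  For a
fixed adele `y` the number `t` with `c_w t = y_w` is therefore the same for `w` and `w ∘ σ`;
the powers of `σ` are all of `Gal(K'/K)` (prime order), which is transitive on the places over
`v`.  The completion at the complex place `v` is `ℂ`.
-/

set_option autoImplicit false

open AutomorphicForm IsDedekindDomain NumberField MeasureTheory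
open scoped ComplexConjugate

noncomputable section

namespace Fermat.Agent.LT.T7.H124

open Fermat.Agent.LT.H556 Fermat.Agent.LT.H556.A0 Fermat.Agent.LT.T7
open Fermat.Agent.LT.T7.H305 Fermat.Agent.LT.T7.H816

variable {K K' : Type} [Field K] [NumberField K] [Field K'] [NumberField K'] [Algebra K K']

/-- The component at `w` of a principal adele. -/
theorem infHom_algebraMap124 (w : InfinitePlace K) (x : K) :
    T5.infHom w (algebraMap K (Adl K) x) = w.embedding x :=
  InfinitePlace.Completion.extensionEmbedding_coe w _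

/-- At a complex place every complex number is a component. -/
theorem exists_infHom_eq124 (v : InfinitePlace K) (hv : v.IsComplex) (t : ℂ) :
    ∃ x : Adl K, T5.infHom v x = t := by
  classical
  obtain ⟨c, hc⟩ := InfinitePlace.Completion.surjective_extensionEmbedding_of_isComplex hv t
  refine ⟨((Pi.single v c : InfiniteAdeleRing K), 0), ?_⟩
  show InfinitePlace.Completion.extensionEmbedding v ((Pi.single v c : InfiniteAdeleRing K) v) = t
  rw [Pi.single_eq_same, hc]

omit [NumberField K] in
/-- A complex place has a non-real value on `K`. -/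
theorem exists_nonreal124 (v : InfinitePlace K) (hv : v.IsComplex) :
    ∃ x : K, conj (v.embedding x) ≠ v.embedding x := by
  by_contra hno
  push Not at hno
  have h1 : ComplexEmbedding.IsReal v.embedding := by
    rw [ComplexEmbedding.isReal_iff]
    exact RingHom.ext fun x => hno x
  exact (InfinitePlace.isComplex_iff.1 hv) h1

/-- Three maps which are the identity or the conjugation and satisfy `f = g ∘ h` at one non-real
point satisfy it everywhere. -/
theorem idconj_comp124 (f g h : ℂ → ℂ) (hf : (∀ z, f z = z) ∨ (∀ z, f z = conj z))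
    (hg : (∀ z, g z = z) ∨ (∀ z, g z = conj z)) (hh : (∀ z, h z = z) ∨ (∀ z, h z = conj z))
    (z₀ : ℂ) (hz₀ : conj z₀ ≠ z₀) (key : f z₀ = g (h z₀)) : ∀ z, f z = g (h z) := by
  intro z
  rcases hf with a | a <;> rcases hg with b | b <;> rcases hh with c | c
  · rw [a, b, c]
  · rw [a, b, c] at key
    exact absurd key.symm hz₀
  · rw [a, b, c] at key
    exact absurd key.symm hz₀
  · rw [a, b, c, Complex.conj_conj]
  · rw [a, b, c] at key
    exact absurd key hz₀
  · rw [a, b, c]
  · rw [a, b, c]
  · rw [a, b, c, Complex.conj_conj] at key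
    exact absurd key hz₀

variable (K K')

/-- **Leaf T7.L2.1.C2.5-I.5 = ONTO-INF**, VERBATIM. -/
theorem ontoInfC124 : H816.OntoInfC816 K K' := by
  classical
  intro D hD hcyc hcplx hσloc ι hι y hy v
  -- the automorphism as an element of the Galois group
  have hfix : ∀ x : K, D.s.σ (algebraMap K K' x) = algebraMap K K' x := fun x =>
    (hD.cyc.fixed _).1 ((hD.base _).2 ⟨x, rfl⟩)
  have hcomp : (D.s.σ : K' →+* K').comp (algebraMap K K') = algebraMap K K' :=
    RingHom.ext fun x => hfix x
  have : FiniteDimensional K K' := by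
    apply Module.finite_of_finrank_pos
    rw [hcyc.degree]
    exact hcyc.prime.pos
  have : IsGalois K K' := hcyc.galois
  have : Fact D.l.Prime := ⟨hcyc.prime⟩
  let σ' : K' ≃ₐ[K] K' := AlgEquiv.ofRingEquiv (f := D.s.σ) hfix
  have hσ'coe : ((σ' : K' ≃ₐ[K] K') : K' →+* K') = (D.s.σ : K' →+* K') :=
    RingHom.ext fun _ => rfl
  have hσ'ne : σ' ≠ 1 := by
    intro h1
    obtain ⟨x, hx⟩ := hD.cyc.faithful 1 one_pos hcyc.prime.one_lt
    apply hx
    rw [pow_one]
    have := AlgEquiv.congr_fun h1 x
    exact this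
  have htop : Subgroup.zpowers σ' = ⊤ :=
    zpowers_eq_top_of_prime_card
      ((IsGalois.card_aut_eq_finrank K K').trans hcyc.degree) hσ'ne
  -- the local forms
  have hF : ∀ w' : InfinitePlace K', ∃ f : ℂ → ℂ, ((∀ z, f z = z) ∨ (∀ z, f z = conj z)) ∧
      ∀ x : Adl K, T5.infHom w' (ι x) = f (T5.infHom (w'.comap (algebraMap K K')) x) := by
    intro w'
    rcases hι.inf w' with h | h
    · exact ⟨fun z => z, Or.inl fun _ => rfl, h⟩
    · exact ⟨fun z => conj z, Or.inr fun _ => rfl, h⟩
  choose F hF1 hF2 using hF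
  have hG : ∀ w : InfinitePlace K', ∃ g : ℂ → ℂ, ((∀ z, g z = z) ∨ (∀ z, g z = conj z)) ∧
      ∀ a : Adl K', T5.infHom w (D.s.σA a)
        = g (T5.infHom (w.comap (D.s.σ : K' →+* K')) a) := by
    intro w
    rcases (hσloc D.s).2 w with h | h
    · exact ⟨fun z => z, Or.inl fun _ => rfl, h⟩
    · exact ⟨fun z => conj z, Or.inr fun _ => rfl, h⟩
  choose Gf hG1 hG2 using hG
  have hover : ∀ w : InfinitePlace K',
      (w.comap (D.s.σ : K' →+* K')).comap (algebraMap K K') = w.comap (algebraMap K K') := by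
    intro w
    rw [← InfinitePlace.comap_comp, hcomp]
  -- the relation between the local forms
  have hrel : ∀ (w : InfinitePlace K') (z : ℂ),
      F w z = Gf w (F (w.comap (D.s.σ : K' →+* K')) z) := by
    intro w
    obtain ⟨x₀, hx₀⟩ := exists_nonreal124 (w.comap (algebraMap K K'))
      (hcplx (w.comap (algebraMap K K')))
    refine idconj_comp124 (F w) (Gf w) (F (w.comap (D.s.σ : K' →+* K'))) (hF1 w) (hG1 w)
      (hF1 _) _ hx₀ ?_
    have h1 := hG2 w (ι (algebraMap K (Adl K) x₀))
    have h2 : D.s.σA (ι (algebraMap K (Adl K) x₀)) = ι (algebraMap K (Adl K) x₀) := by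
      rw [hι.rat, D.s.compat, hfix]
    rw [h2, hF2 w, hF2 (w.comap (D.s.σ : K' →+* K')), hover w, infHom_algebraMap124] at h1
    exact h1
  -- one step along `σ`
  have hstep : ∀ (w : InfinitePlace K') (t : ℂ),
      F (w.comap (D.s.σ : K' →+* K')) t = T5.infHom (w.comap (D.s.σ : K' →+* K')) y →
        F w t = T5.infHom w y := by
    intro w t ht
    have h1 := hG2 w y
    rw [hy] at h1
    rw [h1, ← ht]
    exact hrel w t
  -- the automorphisms along which the step is possible
  let H : Submonoid (K' ≃ₐ[K] K') :=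
    { carrier := {τ | ∀ (w : InfinitePlace K') (t : ℂ),
        F (w.comap ((τ : K' ≃ₐ[K] K') : K' →+* K')) t
          = T5.infHom (w.comap ((τ : K' ≃ₐ[K] K') : K' →+* K')) y → F w t = T5.infHom w y}
      one_mem' := fun w t ht => ht
      mul_mem' := fun {τ₁ τ₂} h₁ h₂ w t ht =>
        h₁ w t (h₂ (w.comap ((τ₁ : K' ≃ₐ[K] K') : K' →+* K')) t ht) }
  have hσH : σ' ∈ H := by
    intro w t ht
    rw [hσ'coe] at ht
    exact hstep w t ht
  have hall : ∀ τ : K' ≃ₐ[K] K', τ ∈ H := by
    intro τ
    have h1 : τ ∈ Subgroup.zpowers σ' := by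
      rw [htop]
      exact Subgroup.mem_top τ
    have h2 : τ ∈ Submonoid.powers σ' := mem_powers_iff_mem_zpowers.2 h1
    exact (Submonoid.powers_le.2 hσH) h2
  -- the base place and the number `t`
  have : Algebra.IsAlgebraic K K' := Algebra.IsAlgebraic.of_finite K K'
  obtain ⟨w₀, hw₀⟩ := InfinitePlace.comap_surjective (K := K') v
  have hw₀' : w₀.comap (algebraMap K K') = v := hw₀
  obtain ⟨t, ht⟩ : ∃ t : ℂ, F w₀ t = T5.infHom w₀ y := by
    rcases hF1 w₀ with a | a
    · exact ⟨T5.infHom w₀ y, a _⟩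
    · exact ⟨conj (T5.infHom w₀ y), by rw [a, Complex.conj_conj]⟩
  obtain ⟨x, hx⟩ := exists_infHom_eq124 v (hcplx v) t
  refine ⟨x, fun w' hw' => ?_⟩
  rw [hF2 w', hw', hx]
  obtain ⟨τ, hτ⟩ := InfinitePlace.exists_smul_eq_of_comap_eq (k := K) (w := w') (w' := w₀)
    (hw'.trans hw₀'.symm)
  refine hall τ.symm w' t ?_
  have h3 : w'.comap ((τ.symm : K' ≃ₐ[K] K') : K' →+* K') = w₀ := hτ
  rw [h3]
  exact ht

end Fermat.Agent.LT.T7.H124

end
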